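import Fermat.Agent.CongruentFive.Descent

/-!
# The space `2 y² = x⁴ + p²`

A point of odd degree gives a rational one, and that a right triangle of area `p`.
-/

set_option autoImplicit false
set_option linter.style.haveILetI false

noncomputable section

open Polynomial Module IntermediateField
open FA.HeegnerCongruent

namespace FA.CongruentSeven

theorem not_isSquare_two : ¬ IsSquare (2 : ℚ) := fun h => by
  obtain ⟨r, hr⟩ := Rat.isSquare_natCast_iff.1 (show IsSquare ((2 : ℕ) : ℚ) by simpa using h)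
  have : r < 2 := by nlinarith
  interval_cases r <;> omega

/-- A point of odd degree on `2 y² = x⁴ + a` gives a rational one. -/
theorem exists_rat_point_two {a : ℚ} {E : IntermediateField ℚ ℝ} [FiniteDimensional ℚ E]
    (hodd : Odd (finrank ℚ E)) {q r : ℝ} (hq : q ∈ E) (hr : r ∈ E)
    (he : 2 * r ^ 2 = q ^ 4 + (a : ℝ)) : ∃ x y : ℚ, 2 * y ^ 2 = x ^ 4 + a := by
  set f : ℚ[X] := X ^ 4 + C a with hf
  have f4 : f.natDegree = 4 := by rw [hf, natDegree_add_C, natDegree_X_pow]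
  have fl : f.leadingCoeff = 1 := by
    rw [hf, (monic_X_pow_add_C a (by norm_num : (4 : ℕ) ≠ 0)).leadingCoeff]
  have hη : r ∈ ℚ⟮q⟯ := by
    refine mem_of_sq_mem hodd (adjoin_simple_le_iff.2 hq) hr ?_
    rw [show r ^ 2 = (q ^ 4 + (a : ℝ)) / 2 by rw [← he]; ring]
    exact div_mem (add_mem (pow_mem (mem_adjoin_simple_self ℚ q) 4)
      (by simp)) (ofNat_mem _ 2)
  have hi : IsIntegral ℚ q :=
    (isIntegral_algHom_iff E.val E.val.injective (x := (⟨q, hq⟩ : E))).2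
      (Algebra.IsIntegral.isIntegral _)
  obtain ⟨x, y, hxy⟩ := exists_rat_point f4 (c := (2 : ℚ)) two_ne_zero
    (by
      rw [fl, one_div, isSquare_inv]
      exact not_isSquare_two) hi (odd_natDegree_of_mem hodd hq) hη (by simp [hf, he])
  exact ⟨x, y, by simpa [hf] using hxy⟩

/-- **`2 y² = x⁴ + p²` gives that `p` is congruent.** -/
theorem congruent_of_two_sq {p : ℕ} (hp : p.Prime) {x y : ℚ}
    (h : 2 * y ^ 2 = x ^ 4 + (p : ℚ) ^ 2) :
    ∃ a b c : ℚ, 0 < a ∧ 0 < b ∧ 0 < c ∧ a ^ 2 + b ^ 2 = c ^ 2 ∧ a * b / 2 = (p : ℚ) := by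
  have hp0 : (0 : ℚ) < p := Nat.cast_pos.2 hp.pos
  have hx : x ≠ 0 := fun e => not_isSquare_two ⟨p / y, by
    have hy : y ≠ 0 := fun e' => by subst e e'; nlinarith
    field_simp
    subst e
    linear_combination h⟩
  have hy : y ≠ 0 := fun e => by subst e; nlinarith [sq_nonneg (x ^ 2)]
  have hn : x ^ 4 - (p : ℚ) ^ 2 ≠ 0 := fun e => by
    rcases mul_eq_zero.1 (show (x ^ 2 - p) * (x ^ 2 + p) = 0 by linear_combination e) with e' | e'
    · exact (Nat.prime_iff.1 hp).not_isSquare (Rat.isSquare_natCast_iff.1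
        ⟨x, by linear_combination -e'⟩)
    · nlinarith [sq_nonneg x]
  set s := |x * y| with hs
  set n := |x ^ 4 - (p : ℚ) ^ 2| with hn'
  have hs0 : 0 < s := abs_pos.2 (mul_ne_zero hx hy)
  have hn0 : 0 < n := abs_pos.2 hn
  have hs2 : s ^ 2 = (x * y) ^ 2 := sq_abs _
  have hn2 : n ^ 2 = (x ^ 4 - (p : ℚ) ^ 2) ^ 2 := sq_abs _
  refine ⟨n / (2 * s), 4 * p * s / n,
    ((x ^ 4 + (p : ℚ) ^ 2) ^ 2 + 4 * p ^ 2 * x ^ 4) / (2 * s * n),
    by positivity, by positivity, by positivity, ?_, by field_simp; ring⟩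
  field_simp
  rw [show n ^ 4 = (n ^ 2) ^ 2 by ring, show s ^ 4 = (s ^ 2) ^ 2 by ring, hs2, hn2]
  linear_combination (16 * (p : ℚ) ^ 2 * x ^ 4 * (2 * y ^ 2 + (x ^ 4 + (p : ℚ) ^ 2))) * h

end FA.CongruentSeven

end
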