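import Fermat.Agent.CongruentSeven.Neighbours

/-!
# The Hauptmodul at a CM point lies in the ring class field

`H = ℚ(√-p, j(√-p))` is normal; its elements have real part in `ℚ(j(√-p))` and imaginary part
`√p` times such; `h(z) ∈ H` as soon as `j(z), j(2 z) ∈ H`.
-/

set_option autoImplicit false
set_option linter.style.haveILetI false

noncomputable section

open UpperHalfPlane hiding I
open Polynomial Module IntermediateField
open FA.ThetaAGM FA.ModField FA.JInj FA.CurveRed.Haupt FA.HeegnerCongruent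
open FA.Singular (values isIntegral_values)

namespace FA.CongruentSeven

local notation "Qb" => AlgebraicClosure ℚ

variable {p : ℕ} (hp : p.Prime) (h4 : p % 4 = 3)

include hp

/-- The ring class field of `ℤ[√-p]` in `ℂ`. -/
theorem exists_normal_field :
    ∃ H : IntermediateField ℚ ℂ, Normal ℚ H ∧ (jIm (Real.sqrt p) : ℂ) ∈ H ∧
      ∀ z ∈ H, z.re ∈ ℚ⟮jIm (Real.sqrt p)⟯ ∧ z.im / Real.sqrt p ∈ ℚ⟮jIm (Real.sqrt p)⟯ := by
  haveI : NeZero p := ⟨hp.ne_zero⟩
  have hs := sqrt_pos_of_prime hp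
  have hτ : ((imPt _ hs : ℍ) : ℂ) ^ 2 = -(p : ℂ) := by
    rw [coe_imPt, mul_pow, Complex.I_sq, ← Complex.ofReal_pow, Real.sq_sqrt (Nat.cast_nonneg _)]
    push_cast; ring
  obtain ⟨L, hfin, hgal, d, hd, hdeg, -, -, hsplit, -⟩ := FA.Summary.ringClassField_order p
  let ι : Qb →ₐ[ℚ] ℂ := IsAlgClosed.lift
  obtain ⟨y, hy, -, hL, -⟩ := FA.RingClassJ.eq_adjoin p L d hd hdeg hsplit ι _ hτ
  set J := jIm (Real.sqrt p) with hJ
  set F := ℚ⟮J⟯ with hF
  have hJF : J ∈ F := mem_adjoin_simple_self ℚ _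
  rw [jfun_imPt_eq] at hy
  have hd' : ι (d : Qb) ^ 2 = -(p : ℂ) := by
    rw [← map_pow, ← map_natCast ι p, ← map_neg]
    exact congrArg ι (congrArg (fun t : L => (t : Qb)) hd |>.trans (by push_cast; rfl))
  have hnorm := hgal.to_normal
  refine ⟨L.map ι, by exact @Normal.of_algEquiv _ _ _ _ _ _ _ _ hnorm (L.equivMap ι),
    ⟨y, y.2, hy⟩, fun z hz => ?_⟩
  rw [hL, adjoin_map, Set.image_pair] at hz
  induction hz using IntermediateField.adjoin_induction with
  | mem w hw =>
    rcases hw with rfl | rfl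
    · have h1 := congrArg Complex.re hd'
      have h2 := congrArg Complex.im hd'
      simp [pow_two] at h1 h2
      set r := (ι (d : Qb)).re
      set i := (ι (d : Qb)).im
      have hr : r = 0 := by
        rcases mul_eq_zero.1 (show r * i = 0 by linarith) with e | e
        · exact e
        · have : (0 : ℝ) < p := Nat.cast_pos.2 hp.pos
          rw [e] at h1
          nlinarith [mul_self_nonneg r]
      refine ⟨hr ▸ zero_mem F, ?_⟩
      rw [hr] at h1
      have hi : (i / Real.sqrt p - 1) * (i / Real.sqrt p + 1) = 0 := by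
        field_simp
        linear_combination -h1 - Real.sq_sqrt (Nat.cast_nonneg p)
      rcases mul_eq_zero.1 hi with e | e
      · rw [show i / Real.sqrt p = 1 by linarith]; exact one_mem F
      · rw [show i / Real.sqrt p = -1 by linarith]; exact neg_mem (one_mem F)
    · rw [hy, Complex.ofReal_re, Complex.ofReal_im, zero_div]
      exact ⟨hJF, zero_mem F⟩
  | algebraMap q =>
    simp only [eq_ratCast, Complex.ratCast_re, Complex.ratCast_im, zero_div]
    exact ⟨F.algebraMap_mem q, zero_mem F⟩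
  | add a b _ _ ha hb =>
    rw [Complex.add_re, Complex.add_im, add_div]
    exact ⟨add_mem ha.1 hb.1, add_mem ha.2 hb.2⟩
  | inv a _ ha =>
    have hn : Complex.normSq a ∈ F := by
      rw [show Complex.normSq a = a.re * a.re + p * ((a.im / Real.sqrt p) * (a.im / Real.sqrt p)) by
        rw [Complex.normSq_apply]; field_simp; rw [Real.sq_sqrt (Nat.cast_nonneg _)]; ring]
      exact add_mem (mul_mem ha.1 ha.1)
        (mul_mem (_root_.natCast_mem F p) (mul_mem ha.2 ha.2))
    rw [Complex.inv_re, Complex.inv_im, show -a.im / Complex.normSq a / Real.sqrt p =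
      -(a.im / Real.sqrt p) / Complex.normSq a by ring]
    exact ⟨div_mem ha.1 hn, div_mem (neg_mem ha.2) hn⟩
  | mul a b _ _ ha hb =>
    rw [Complex.mul_re, Complex.mul_im, show a.im * b.im =
      p * ((a.im / Real.sqrt p) * (b.im / Real.sqrt p)) by
      field_simp; rw [Real.sq_sqrt (Nat.cast_nonneg _)], show (a.re * b.im + a.im * b.re) /
      Real.sqrt p = a.re * (b.im / Real.sqrt p) + a.im / Real.sqrt p * b.re by ring]
    exact ⟨sub_mem (mul_mem ha.1 hb.1) (mul_mem (_root_.natCast_mem F p) (mul_mem ha.2 hb.2)),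
      add_mem (mul_mem ha.1 hb.2) (mul_mem ha.2 hb.1)⟩

omit hp in
/-- A normal field with one singular modulus of a discriminant has all of them. -/
theorem values_mem {H : IntermediateField ℚ ℂ} [Normal ℚ H] {D : ℤ} (hD : D < 0) {u v : ℂ}
    (hu : u ∈ values D) (hv : v ∈ values D) (h : u ∈ H) : v ∈ H := by
  have hi := isIntegral_values hD hu
  have hsp := Normal.splits (F := ℚ) inferInstance (⟨u, h⟩ : H)
  rw [show minpoly ℚ (⟨u, h⟩ : H) = minpoly ℚ u from
    (minpoly.algHom_eq H.val H.val.injective (⟨u, h⟩ : H)).symm] at hsp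
  have him := hsp.image_rootSet H.val
  have hv' : v ∈ (minpoly ℚ u).rootSet ℂ := by
    rw [mem_rootSet, minpoly.isIntegrallyClosed_eq_field_fractions' ℚ hi, aeval_map_algebraMap,
      FA.Singular.minpoly_eq_of_mem hD hu hv]
    exact ⟨((minpoly.monic (isIntegral_values hD hv)).map _).ne_zero, minpoly.aeval ℤ _⟩
  rw [← him] at hv'
  obtain ⟨w, -, rfl⟩ := hv'
  exact w.2

variable (hp16 : 16 < p)

include hp16

/-- `h(z) ∈ H` if `j(z), j(2 z) ∈ H`. -/
theorem haupt_mem {H : IntermediateField ℚ ℂ} {z : ℍ} (hz : IsQuad p z) (h1 : jfun z ∈ H)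
    (h2 : jfun (scaleH 2 z) ∈ H) : -haupt2Fun z ∈ H := by
  obtain ⟨-, huniq⟩ := haupt_roots hp hp16 hz
  set h := -haupt2Fun z with hh
  have h0 : h ≠ 0 := neg_ne_zero.2 (FA.Elkies.haupt_ne_zero _)
  set P : Polynomial H := (X - 16) ^ 3 - C ⟨_, h2⟩ * X with hP
  set Q : Polynomial H := (X - 256) ^ 3 + C ⟨_, h1⟩ * X ^ 2 with hQ
  have hPe : ∀ T : ℂ, aeval T P = (T - 16) ^ 3 - jfun (scaleH 2 z) * T := fun T => by
    simp only [hP, map_sub, map_pow, map_mul, aeval_X, aeval_C, map_ofNat]
    rfl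
  have hQe : ∀ T : ℂ, aeval T Q = (T - 256) ^ 3 + jfun z * T ^ 2 := fun T => by
    simp only [hQ, map_add, map_sub, map_pow, map_mul, aeval_X, aeval_C, map_ofNat]
    rfl
  have hxP : aeval h P = 0 := by rw [hPe, hh, cube_neg_haupt, sub_self]
  have hxQ : aeval h Q = 0 := by
    rw [hQe, jfun_eq_otherInvC, otherInvC, ← hh, div_mul_cancel₀ _ (pow_ne_zero 2 h0)]
    ring
  have hPm : P.Monic := by rw [hP]; monicity!
  have hi : IsIntegral H h := ⟨P, hPm, hxP⟩
  set m := minpoly H h with hm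
  have hroots : ∀ r ∈ (m.map (algebraMap H ℂ)).roots, r = h := fun r hr => by
    rw [mem_roots', IsRoot, eval_map, ← aeval_def] at hr
    have e1 : aeval r P = 0 := aeval_eq_zero_of_dvd_aeval_eq_zero (minpoly.dvd H _ hxP) hr.2
    have e2 : aeval r Q = 0 := aeval_eq_zero_of_dvd_aeval_eq_zero (minpoly.dvd H _ hxQ) hr.2
    rw [hPe, sub_eq_zero] at e1
    rw [hQe] at e2
    have hr0 : r ≠ 0 := fun e => by rw [e] at e2; norm_num at e2
    refine huniq r e1 ?_
    rw [otherInvC, div_eq_iff (pow_ne_zero 2 hr0)]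
    linear_combination -e2
  have hsep : (m.map (algebraMap H ℂ)).roots.Nodup :=
    nodup_roots ((minpoly.irreducible hi).separable.map)
  have hcard : m.natDegree ≤ 1 := by
    rw [← natDegree_map (f := algebraMap H ℂ),
      (IsAlgClosed.splits (m.map (algebraMap H ℂ))).natDegree_eq_card_roots]
    have h' := hsep
    rw [Multiset.eq_replicate_of_mem hroots, Multiset.nodup_iff_count_le_one] at h'
    simpa using h' h
  obtain ⟨y, hy⟩ := minpoly.natDegree_eq_one_iff.1 (le_antisymm hcard (minpoly.natDegree_pos hi))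
  exact hy ▸ y.2

end FA.CongruentSeven

end
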