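import Fermat.Agent.CongruentSeven.Field
import Fermat.Agent.CongruentSeven.Descent

/-!
# Primes `p ≡ 7 (mod 8)` are congruent numbers

With `32 ∣ b² + p`, `z = (b + √-p) / 16` and `h_i = h(2^i z) ∈ H`: `h₃ = x` is real, above `64` and
equal to `d⁴ (16 - d⁴)`, `d ∈ H`; so `d = m + n √-p` has `Re d⁴ = 8`, a point `(1 / n, A)` of odd
degree on `2 A² = M⁴ + p²`.
-/

set_option autoImplicit false
set_option linter.style.haveILetI false

noncomputable section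

open UpperHalfPlane hiding I
open Module IntermediateField
open FA.ThetaAGM FA.ModField FA.JInj FA.CurveRed.Haupt FA.HeegnerCongruent
open FA.Singular (values disc IsRoot jfun_mem_values jfun_principal_eq)

namespace FA.CongruentSeven

variable {p : ℕ} (hp : p.Prime) (h8 : p % 8 = 7)

include hp h8

omit hp in
theorem exists_shift : ∃ b C : ℕ, b % 2 = 1 ∧ b ^ 2 + p = 32 * C := by
  obtain ⟨k, hk⟩ : ∃ k, p = 32 * k + p % 32 := ⟨p / 32, by omega⟩
  rcases (show p % 32 = 7 ∨ p % 32 = 15 ∨ p % 32 = 23 ∨ p % 32 = 31 by omega) with e | e | e | e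
  · exact ⟨5, k + 1, rfl, by omega⟩
  · exact ⟨7, k + 2, rfl, by omega⟩
  · exact ⟨3, k + 1, rfl, by omega⟩
  · exact ⟨1, k + 1, rfl, by omega⟩

/-- The singular moduli along `(b + √-p) / 16, …, (b + √-p) / 2`. -/
theorem chain_mem_values {b C : ℕ} (hb : b % 2 = 1) (hC : b ^ 2 + p = 32 * C) {i j : ℕ}
    (hij : i + j = 3) {w : ℍ}
    (hw : (w : ℂ) = ((b : ℂ) + Complex.I * (Real.sqrt p : ℂ)) / (2 * 2 ^ j : ℕ)) :
    jfun w ∈ values (-(p : ℤ)) := by
  have hsq : ((Real.sqrt p : ℝ) : ℂ) ^ 2 = (p : ℂ) := by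
    rw [← Complex.ofReal_pow, Real.sq_sqrt (Nat.cast_nonneg _)]; norm_num
  have hd : disc (((2 ^ j : ℕ) : ℤ), -(b : ℤ), ((2 ^ i * C : ℕ) : ℤ)) = -(p : ℤ) := by
    have h2 : 2 ^ j * 2 ^ i = 8 := by rw [← pow_add, add_comm, hij]; rfl
    have hC' : (b : ℤ) ^ 2 + p = 32 * C := by exact_mod_cast hC
    have h2' : ((2 : ℤ) ^ j) * 2 ^ i = 8 := by exact_mod_cast h2
    simp only [disc]
    push_cast
    linear_combination hC' - 4 * (C : ℤ) * h2'
  rw [← hd]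
  refine jfun_mem_values (Int.natCast_pos.2 (Nat.two_pow_pos j))
    (by rw [hd]; have := hp.pos; omega) ?_ ?_
  · show Int.gcd ((Int.gcd ((2 ^ j : ℕ) : ℤ) (-(b : ℤ)) : ℕ) : ℤ) ((2 ^ i * C : ℕ) : ℤ) = 1
    rw [Int.gcd_neg, Int.gcd_natCast_natCast, Int.gcd_natCast_natCast,
      ((Nat.coprime_two_left.2 (Nat.odd_iff.2 hb)).pow_left j).gcd_eq_one]
    simp
  · have h2 : (2 : ℂ) ^ j * 2 ^ i = 8 := by rw [← pow_add, add_comm, hij]; norm_num
    have hC' : (b : ℂ) ^ 2 + p = 32 * C := by exact_mod_cast hC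
    simp only [IsRoot, hw]
    push_cast
    field_simp
    linear_combination Complex.I ^ 2 * hsq + (p : ℂ) * Complex.I_sq - hC' + 4 * (C : ℂ) * h2

/-- **The fourth root.** -/
theorem exists_fourth (hp16 : 16 < p) :
    ∃ d : ℂ, (d.re ∈ ℚ⟮jIm (Real.sqrt p)⟯ ∧ d.im / Real.sqrt p ∈ ℚ⟮jIm (Real.sqrt p)⟯) ∧
      ∃ x : ℝ, 64 < x ∧ (x : ℂ) = d ^ 4 * (16 - d ^ 4) := by
  have h4 : p % 4 = 3 := by omega
  have hs := sqrt_pos_of_prime hp
  have hsq : ((Real.sqrt p : ℝ) : ℂ) ^ 2 = (p : ℂ) := by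
    rw [← Complex.ofReal_pow, Real.sq_sqrt (Nat.cast_nonneg _)]; norm_num
  obtain ⟨b, C, hb, hC⟩ := exists_shift h8
  obtain ⟨H, hnorm, hJH, hH⟩ := exists_normal_field hp
  set J := jIm (Real.sqrt p) with hJ
  let z₀ : ℍ := ⟨((b : ℂ) + Complex.I * (Real.sqrt p : ℂ)) / 16, by
    simp [Complex.div_ofNat_im, hp.pos]⟩
  have hz₀ : (z₀ : ℂ) = ((b : ℂ) + Complex.I * (Real.sqrt p : ℂ)) / 16 := rfl
  set z₁ := scaleH 2 z₀ with hz₁
  set z₂ := scaleH 2 z₁ with hz₂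
  set z₃ := scaleH 2 z₂ with hz₃
  have q₀ : IsQuad p z₀ := ⟨b / 16, 1 / 16, by norm_num, by rw [hz₀]; push_cast; ring⟩
  have q₁ : IsQuad p z₁ := isQuad_scale q₀ 2
  have q₂ : IsQuad p z₂ := isQuad_scale q₁ 2
  have c₁ : (z₁ : ℂ) = 2 * z₀ := by rw [hz₁, coe_scaleH]; norm_num
  have c₂ : (z₂ : ℂ) = 4 * z₀ := by rw [hz₂, coe_scaleH, c₁]; push_cast; ring
  have c₃ : (z₃ : ℂ) = 8 * z₀ := by rw [hz₃, coe_scaleH, c₂]; push_cast; ring
  have v₀ := chain_mem_values hp h8 hb hC (i := 0) (j := 3) (w := z₀) rfl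
    (by rw [hz₀]; norm_num)
  have v₁ := chain_mem_values hp h8 hb hC (i := 1) (j := 2) (w := z₁) rfl
    (by rw [c₁, hz₀]; push_cast; ring)
  have v₂ := chain_mem_values hp h8 hb hC (i := 2) (j := 1) (w := z₂) rfl
    (by rw [c₂, hz₀]; push_cast; ring)
  have v₃ := chain_mem_values hp h8 hb hC (i := 3) (j := 0) (w := z₃) rfl
    (by rw [c₃, hz₀]; push_cast; ring)
  have e : jfun (scaleH 2 z₃) = (J : ℂ) := by
    rw [hJ, ← jfun_imPt_eq hs]
    refine jfun_principal_eq (B := -2 * (b : ℤ)) (C := (b : ℤ) ^ 2 + p) (B' := 0) (C' := (p : ℤ))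
      (by ring) ?_ ?_
    · simp only [IsRoot, coe_scaleH, c₃, hz₀]
      push_cast
      linear_combination Complex.I ^ 2 * hsq + (p : ℂ) * Complex.I_sq
    · simp only [IsRoot, coe_imPt]
      push_cast
      linear_combination Complex.I ^ 2 * hsq + (p : ℂ) * Complex.I_sq
  set l := modK (Real.sqrt p) ^ 2 with hl
  have hx : -haupt2Fun z₃ = (rootOne l : ℂ) := by
    have := eq_rootOne_of_other hp h4 (σ := RingEquiv.refl ℂ) (r := -haupt2Fun z₃)
      (by rw [RingEquiv.refl_apply, ← hJ, ← e]; exact cube_neg_haupt z₃)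
      (jfun_eq_otherInvC z₃ ▸ v₃)
    simpa using this
  obtain ⟨hxF, c, hc, -, hlF⟩ := rootOne_mem hp h4 (t := Real.sqrt p) rfl
  have hxH : (rootOne l : ℂ) ∈ H := adjoin_simple_le_iff.2 hJH (ofReal_mem_adjoin_iff.2 hxF)
  have hj₃ : jfun z₃ ∈ H := by
    rw [jfun_eq_otherInvC, hx, otherInvC]
    exact div_mem (neg_mem (pow_mem (sub_mem hxH (ofNat_mem H 256)) 3)) (pow_mem hxH 2)
  have hD : -(p : ℤ) < 0 := by have := hp.pos; omega
  have hmem : ∀ {v : ℂ}, v ∈ values (-(p : ℤ)) → v ∈ H := fun hv => values_mem hD v₃ hv hj₃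
  have S₀ := (haupt_roots hp hp16 q₀).1
  have S₁ := (haupt_roots hp hp16 q₁).1
  have S₂ := (haupt_roots hp hp16 q₂).1
  obtain ⟨d, hd, hxd⟩ := exists_fourth_root S₀ S₁ (hx ▸ S₂)
    (haupt_mem hp hp16 q₀ (hmem v₀) (hmem v₁)) (haupt_mem hp hp16 q₁ (hmem v₁) (hmem v₂))
    (haupt_mem hp hp16 q₂ (hmem v₂) hj₃) hxH
  refine ⟨d, hH d hd, rootOne l, ?_, hxd⟩
  have h0 : 0 < l := pow_pos (modK_pos hs) 2
  have h1 : 0 < 1 - l := by
    rw [hl]
    nlinarith [modK_pos hs, modK_lt_one hs]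
  have hne : l ≠ 1 / 2 := fun e => hlF (by
    rw [← hl, e]
    exact div_mem (one_mem _) (ofNat_mem _ 2))
  rw [rootOne, lt_div_iff₀ (mul_pos h0 h1)]
  have : 0 < (1 - 2 * l) ^ 2 := pow_two_pos_of_ne_zero fun e => hne (by linarith)
  nlinarith

/-- **Primes `p ≡ 7 (mod 8)` are congruent.** -/
theorem prime_congruent :
    ∃ a b c : ℚ, 0 < a ∧ 0 < b ∧ 0 < c ∧ a ^ 2 + b ^ 2 = c ^ 2 ∧ a * b / 2 = (p : ℚ) := by
  rcases (show p = 7 ∨ 16 < p by
    have : p ≠ 15 := fun e => by subst e; norm_num at hp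
    omega) with rfl | hp16
  · exact ⟨35 / 12, 24 / 5, 337 / 60, by norm_num, by norm_num, by norm_num, by norm_num,
      by norm_num⟩
  obtain ⟨d, ⟨hm, hn⟩, x, hx64, hxd⟩ := exists_fourth hp h8 hp16
  obtain ⟨_, hodd⟩ := odd_degree_field hp (show p % 4 = 3 by omega)
  set F := ℚ⟮jIm (Real.sqrt p)⟯ with hF
  have hs := sqrt_pos_of_prime hp
  set m := d.re
  set n := d.im / Real.sqrt p with hn'
  have hi : d.im ^ 2 = p * n ^ 2 := by
    rw [hn', div_pow, Real.sq_sqrt (Nat.cast_nonneg _)]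
    field_simp [hp.ne_zero]
  set t := d ^ 4 with ht
  have hre := congrArg Complex.re hxd
  have him := congrArg Complex.im hxd
  simp only [Complex.ofReal_re, Complex.ofReal_im, Complex.mul_re, Complex.mul_im,
    Complex.sub_re, Complex.sub_im, Complex.re_ofNat, Complex.im_ofNat] at hre him
  have hti : t.im ≠ 0 := fun e => by
    rw [e] at hre
    nlinarith [sq_nonneg (t.re - 8)]
  have ht8 : t.re = 8 := by
    have : t.im * (16 - 2 * t.re) = 0 := by linear_combination -him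
    rcases mul_eq_zero.1 this with e | e
    · exact absurd e hti
    · linarith
  have hd4 : t.re = m ^ 4 - 6 * m ^ 2 * d.im ^ 2 + d.im ^ 4 := by
    rw [ht]
    simp [pow_succ]
    ring
  have hn0 : n ≠ 0 := fun e => hti (by
    have : d.im = 0 := by
      rw [e] at hi
      simpa using hi
    rw [ht]
    simp [pow_succ, this])
  set A := m ^ 2 - 3 * p * n ^ 2 with hA
  have hA2 : A ^ 2 = 8 + 8 * (p : ℝ) ^ 2 * n ^ 4 := by
    rw [hd4, show d.im ^ 4 = (d.im ^ 2) ^ 2 by ring, hi] at ht8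
    rw [hA]
    linear_combination ht8
  have hAF : A ∈ F := sub_mem (pow_mem hm 2)
    (mul_mem (mul_mem (ofNat_mem F 3) (_root_.natCast_mem F p)) (pow_mem hn 2))
  obtain ⟨X, Y, hXY⟩ := exists_rat_point_two (a := (p : ℚ) ^ 2) hodd (inv_mem hn)
    (div_mem hAF (mul_mem (ofNat_mem F 4) (pow_mem hn 2))) (by
      push_cast
      field_simp
      linear_combination (2 : ℝ) * hA2)
  exact congruent_of_two_sq hp hXY

end FA.CongruentSeven

end
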