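import Fermat.Agent.CongruentSeven.Tower
import Fermat.Agent.HeegnerCongruent.Neighbours

/-!
# The three `2`-neighbours of a CM point are different

An integral matrix of determinant `4` fixing `x + y √-p`, `16 < p`, is scalar; so `j(z)`,
`j(z + 1/2)`, `j(4 z)` are different and `h(z)`, `h(2 z)` form a step of the tower.
-/

set_option autoImplicit false
set_option linter.style.haveILetI false

noncomputable section

open UpperHalfPlane hiding I
open FA.ModField FA.JInj FA.CurveRed.Haupt FA.HeegnerCongruent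
open scoped MatrixGroups

namespace FA.CongruentSeven

/-- A point `x + y √-p` with `x`, `y` rational. -/
def IsQuad (p : ℕ) (z : ℍ) : Prop :=
  ∃ x y : ℚ, y ≠ 0 ∧ (z : ℂ) = (x : ℂ) + (y : ℂ) * (Complex.I * (Real.sqrt p : ℂ))

theorem isQuad_scale {p : ℕ} {z : ℍ} (h : IsQuad p z) (k : ℕ) [NeZero k] :
    IsQuad p (scaleH k z) := by
  obtain ⟨x, y, hy, hz⟩ := h
  refine ⟨k * x, k * y, mul_ne_zero (Nat.cast_ne_zero.2 (NeZero.ne k)) hy, ?_⟩
  rw [coe_scaleH, hz]
  push_cast
  ring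

theorem isQuad_add {p : ℕ} {z z' : ℍ} (h : IsQuad p z) {r : ℚ} (e : (z' : ℂ) = z + (r : ℂ)) :
    IsQuad p z' := by
  obtain ⟨x, y, hy, hz⟩ := h
  exact ⟨x + r, y, hy, by rw [e, hz]; push_cast; ring⟩

variable {p : ℕ} (hp : p.Prime) (hp16 : 16 < p)

include hp hp16

/-- An integral matrix of determinant `4` fixing such a point is scalar. -/
theorem scalar_of_fix {z : ℍ} (hz : IsQuad p z) {a b c d : ℤ} (hdet : a * d - b * c = 4)
    (h : (a : ℂ) * z + b = z * ((c : ℂ) * z + d)) : c = 0 ∧ b = 0 ∧ a = d := by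
  obtain ⟨x, y, hy, e⟩ := hz
  have hs : Real.sqrt p * Real.sqrt p = p := Real.mul_self_sqrt (Nat.cast_nonneg _)
  have hre := congrArg Complex.re h
  have him := congrArg Complex.im h
  rw [e] at hre him
  simp at hre him
  have hy' : (y : ℝ) * Real.sqrt p ≠ 0 :=
    mul_ne_zero (Rat.cast_ne_zero.2 hy) (sqrt_pos_of_prime hp).ne'
  have h1 : (a : ℝ) - d = 2 * c * x := mul_right_cancel₀ hy' (by linear_combination him)
  have h2 : (b : ℝ) = -(c * ((x : ℝ) ^ 2 + y ^ 2 * p)) := by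
    linear_combination hre - (x : ℝ) * h1 - (c : ℝ) * y ^ 2 * hs
  have key : (p : ℝ) * (2 * c * y) ^ 2 = 16 - ((a : ℝ) + d) ^ 2 := by
    have hd' : (a : ℝ) * d - b * c = 4 := by exact_mod_cast hdet
    linear_combination 4 * hd' + ((a : ℝ) - d + 2 * c * x) * h1 + 4 * (c : ℝ) * h2
  have keyQ : (p : ℚ) * (2 * c * y) ^ 2 = ((16 - (a + d) ^ 2 : ℤ) : ℚ) := by
    have : ((p : ℚ) : ℝ) * ((2 * c * y : ℚ) : ℝ) ^ 2 = (((16 - (a + d) ^ 2 : ℤ) : ℚ) : ℝ) := by
      push_cast
      linear_combination key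
    exact_mod_cast this
  generalize hq : (2 * c * y : ℚ) = q at keyQ
  have hnd : (p : ℤ) * q.num ^ 2 = (16 - (a + d) ^ 2) * (q.den : ℤ) ^ 2 := by
    rw [← Rat.num_div_den q, div_pow, ← mul_div_assoc,
      div_eq_iff (pow_ne_zero 2 (Nat.cast_ne_zero.2 q.den_nz))] at keyQ
    exact_mod_cast keyQ
  have hden : q.den = 1 := by
    have h1' : (q.den ^ 2 : ℕ) ∣ p := by
      refine Nat.Coprime.dvd_of_dvd_mul_right (m := p) (n := q.num.natAbs ^ 2)
        (q.reduced.symm.pow 2 2) ?_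
      have h3 : ((q.den ^ 2 : ℕ) : ℤ) ∣ (p : ℤ) * q.num ^ 2 := ⟨16 - (a + d) ^ 2, by
        rw [hnd]; push_cast; ring⟩
      have := Int.natCast_dvd.1 h3
      rwa [Int.natAbs_mul, Int.natAbs_pow, Int.natAbs_natCast] at this
    rcases (Nat.dvd_prime hp).1 h1' with h3 | h3
    · exact (pow_eq_one_iff.1 h3).resolve_right two_ne_zero
    · exact absurd (h3 ▸ hp) (Nat.Prime.not_prime_pow le_rfl)
  rw [hden, Nat.cast_one, one_pow, mul_one] at hnd
  have hq0 : q.num = 0 := by
    by_contra hne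
    have : 1 ≤ q.num ^ 2 := by nlinarith [sq_abs q.num, Int.one_le_abs hne]
    have : (16 : ℤ) < p := by exact_mod_cast hp16
    nlinarith [sq_nonneg (a + d)]
  have hc : c = 0 := by
    have : (2 * c * y : ℚ) = 0 := by rw [hq, ← Rat.num_eq_zero]; exact hq0
    simpa [hy] using this
  subst hc
  refine ⟨rfl, ?_, ?_⟩
  · exact_mod_cast (by simpa using h2 : (b : ℝ) = 0)
  · exact_mod_cast (by simpa [sub_eq_zero] using h1 : (a : ℝ) = d)

/-- `j(z + 1/2) ≠ j(z)`. -/
theorem jfun_ne_half {z z' : ℍ} (hz : IsQuad p z) (hz' : (z' : ℂ) = z + 1 / 2) :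
    jfun z ≠ jfun z' := fun h => by
  obtain ⟨g, hg⟩ := (jfun_eq_iff _ _).1 h
  have e := congrArg (fun w : ℍ => (w : ℂ)) hg
  have hd := UpperHalfPlane.denom_ne_zero g z
  have hdet := Matrix.SpecialLinearGroup.det_coe g
  rw [Matrix.det_fin_two] at hdet
  simp only [UpperHalfPlane.specialLinearGroup_apply, hz'] at e
  simp [UpperHalfPlane.denom] at hd
  simp at e
  rw [div_eq_iff hd] at e
  obtain ⟨h1, h2, h3⟩ := scalar_of_fix hp hp16 hz (a := 2 * g.1 0 0 - g.1 1 0)
    (b := 2 * g.1 0 1 - g.1 1 1) (c := 2 * g.1 1 0) (d := 2 * g.1 1 1)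
    (by linear_combination 4 * hdet) (by push_cast; linear_combination 2 * e)
  have h00 : g.1 1 0 = 0 := by omega
  rw [h00, mul_zero, sub_zero] at hdet
  rcases Int.eq_one_or_neg_one_of_mul_eq_one' hdet with ⟨-, h⟩ | ⟨-, h⟩ <;> omega

/-- `j(4 z + n) ≠ j(z)`. -/
theorem jfun_ne_four {z z' : ℍ} (hz : IsQuad p z) {n : ℤ} (hz' : (z' : ℂ) = 4 * z + (n : ℂ)) :
    jfun z ≠ jfun z' := fun h => by
  obtain ⟨g, hg⟩ := (jfun_eq_iff _ _).1 h
  have e := congrArg (fun w : ℍ => (w : ℂ)) hg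
  have hd := UpperHalfPlane.denom_ne_zero g z
  have hdet := Matrix.SpecialLinearGroup.det_coe g
  rw [Matrix.det_fin_two] at hdet
  simp only [UpperHalfPlane.specialLinearGroup_apply, hz'] at e
  simp [UpperHalfPlane.denom] at hd
  simp at e
  rw [div_eq_iff hd] at e
  obtain ⟨h1, h2, h3⟩ := scalar_of_fix hp hp16 hz (a := g.1 0 0 - n * g.1 1 0)
    (b := g.1 0 1 - n * g.1 1 1) (c := 4 * g.1 1 0) (d := 4 * g.1 1 1)
    (by linear_combination 4 * hdet) (by push_cast; linear_combination e)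
  have h00 : g.1 1 0 = 0 := by omega
  rw [h00, mul_zero, sub_zero] at hdet h3
  rw [h3] at hdet
  have : (4 : ℤ) ∣ 1 := ⟨g.1 1 1 * g.1 1 1, by linear_combination -hdet⟩
  omega

omit hp hp16 in
theorem jfun_shift_one {z z' : ℍ} (h : (z' : ℂ) = z + 1) : jfun z' = jfun z := by
  rw [← jfun_smul ModularGroup.T z]
  refine congrArg jfun (UpperHalfPlane.ext ?_)
  rw [modular_T_smul, coe_vadd, h]
  push_cast
  ring

/-- **The roots** of `(T - 16)³ = j(2 z) T` and their other invariants. -/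
theorem haupt_roots {z : ℍ} (hz : IsQuad p z) :
    Step (-haupt2Fun z) (-haupt2Fun (scaleH 2 z)) ∧
      ∀ r : ℂ, (r - 16) ^ 3 = jfun (scaleH 2 z) * r → otherInvC r = jfun z →
        r = -haupt2Fun z := by
  let z' : ℍ := ⟨(z : ℂ) + 1 / 2, by simpa [Complex.div_ofNat_im] using z.im_pos⟩
  have hz' : (z' : ℂ) = z + 1 / 2 := rfl
  let u : ℍ := scaleH 2 (scaleH 2 z)
  have hu : (u : ℂ) = 4 * z + ((0 : ℤ) : ℂ) := by
    simp only [u, coe_scaleH]; push_cast; ring
  have hu' : (u : ℂ) = 4 * z' + ((-2 : ℤ) : ℂ) := by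
    rw [hu, hz']; push_cast; ring
  have hq' : IsQuad p z' := isQuad_add hz (r := 1 / 2) (by rw [hz']; push_cast; ring)
  have e2 : jfun (scaleH 2 z') = jfun (scaleH 2 z) :=
    jfun_shift_one (by rw [coe_scaleH, coe_scaleH, hz']; push_cast; ring)
  have n1 := jfun_ne_half hp hp16 hz hz'
  have n2 := jfun_ne_four hp hp16 hz hu
  have n3 := jfun_ne_four hp hp16 hq' hu'
  set h := -haupt2Fun z with hh
  set k := -haupt2Fun (scaleH 2 z) with hk
  set t := -haupt2Fun z' with ht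
  have hk0 : k ≠ 0 := neg_ne_zero.2 (FA.Elkies.haupt_ne_zero _)
  have hj : jfun z = otherInvC h := jfun_eq_otherInvC z
  have hjt : jfun z' = otherInvC t := jfun_eq_otherInvC z'
  have hju : jfun u = otherInvC (4096 / k) := by
    have hc := cube_neg_haupt (scaleH 2 z)
    rw [← hk] at hc
    rw [otherInvC]
    field_simp
    linear_combination (-16777216 : ℂ) * hc
  have hR : (4096 / k - 16) ^ 3 = jfun (scaleH 2 z) * (4096 / k) := by
    have hc := FA.Elkies.jfun_mul_haupt_sq (scaleH 2 z)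
    rw [show haupt2Fun (scaleH 2 z) = -k by rw [hk, neg_neg]] at hc
    field_simp
    linear_combination (-4096 : ℂ) * hc
  have hne : h ≠ 4096 / k := fun e => n2 (by rw [hj, hju, e])
  obtain ⟨hprod, hfac⟩ := cubic_factor hne (cube_neg_haupt z) hR
  have htr : t = 48 - h - 4096 / k := by
    have hc := hfac t
    rw [show (t - 16) ^ 3 = jfun (scaleH 2 z) * t by rw [← e2]; exact cube_neg_haupt z', sub_self,
      eq_comm, mul_eq_zero, mul_eq_zero, sub_eq_zero, sub_eq_zero, sub_eq_zero] at hc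
    rcases hc with (e | e) | e
    · exact absurd (by rw [hj, hjt, e]) n1
    · exact absurd (by rw [hjt, hju, e]) n3
    · exact e
  refine ⟨⟨?_, fun e => hne ?_, fun e => n1 ?_⟩, fun r hr hrj => ?_⟩
  · field_simp at hprod
    linear_combination hprod
  · rw [eq_div_iff hk0]; exact e
  · have h0 : h ≠ 0 := neg_ne_zero.2 (FA.Elkies.haupt_ne_zero _)
    have : t = h := by
      rw [htr]
      refine mul_left_cancel₀ (mul_ne_zero h0 h0) ?_
      rw [e] at hprod ⊢
      field_simp at hprod ⊢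
      linear_combination -hprod
    rw [hj, hjt, this]
  · have hc := hfac r
    rw [hr, sub_self, eq_comm, mul_eq_zero, mul_eq_zero, sub_eq_zero, sub_eq_zero,
      sub_eq_zero] at hc
    rcases hc with (e | e) | e
    · exact e
    · exact absurd (hrj.symm.trans (by rw [hju, e])) n2
    · exact absurd (hrj.symm.trans (by rw [hjt, htr, e])) n1

end FA.CongruentSeven

end
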