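import Mathlib.FieldTheory.IntermediateField.Adjoin.Basic
import Mathlib.Tactic.FieldSimp
import Mathlib.Tactic.LinearCombination
import Mathlib.Analysis.Complex.Basic

/-!
# Three steps in the tower of the Hauptmodul of level two

`h = h(z)`, `h' = h(2 z)` satisfy `h² h' + 4096 h + h'² - 48 h h' = 0`; three such steps give
`d` with `h₃ = d⁴ (16 - d⁴)`.
-/

set_option autoImplicit false

noncomputable section

namespace FA.CongruentSeven

variable {K : Type*} [Field K]

/-- The third root of `(T - 16)³ = J T` beside `h` and `R`. -/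
theorem cubic_factor {J h R : K} (hne : h ≠ R) (e1 : (h - 16) ^ 3 = J * h)
    (e2 : (R - 16) ^ 3 = J * R) :
    h * R * (h + R - 48) = -4096 ∧
      ∀ r : K, (r - 16) ^ 3 - J * r = (r - h) * (r - R) * (r - (48 - h - R)) := by
  have hJ : J = h ^ 2 + h * R + R ^ 2 - 48 * (h + R) + 768 := by
    refine mul_left_cancel₀ (sub_ne_zero.2 hne) ?_
    linear_combination -e1 + e2
  subst hJ
  have h' : h * R * (h + R - 48) = -4096 := by linear_combination -e1
  exact ⟨h', fun r => by linear_combination -h'⟩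

/-- One step: `h = h(z)`, `h' = h(2 z)`. -/
structure Step (h h' : K) : Prop where
  rel : h ^ 2 * h' + 4096 * h + h' ^ 2 - 48 * h * h' = 0
  ne : h * h' ≠ 4096
  ne_sq : h' ≠ h ^ 2

variable {h h' : K}

theorem Step.ne_sixteen (S : Step h h') : h ≠ 16 := fun e => by
  have : (h' - 256) ^ 2 = 0 := by have := S.rel; rw [e] at this; linear_combination this
  rw [pow_eq_zero_iff two_ne_zero, sub_eq_zero] at this
  exact S.ne (by rw [e, this]; norm_num)

theorem Step.ne_sixtyFour (S : Step h h') (h2 : (2 : K) ≠ 0) : h' ≠ 64 := fun e => by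
  have h64 : (64 : K) ≠ 0 := by rw [show (64 : K) = 2 ^ 6 by norm_num]; exact pow_ne_zero _ h2
  have : (h + 8) ^ 2 = 0 := by
    refine mul_left_cancel₀ h64 ?_
    have := S.rel; rw [e] at this; linear_combination this
  rw [pow_eq_zero_iff two_ne_zero, add_eq_zero_iff_eq_neg] at this
  exact S.ne_sq (by rw [e, this]; norm_num)

/-- `w = √(64 - h')` is rational in `h`, `h'`, and `h (w - 8) = (w + 8)²`. -/
theorem Step.root (S : Step h h') (h2 : (2 : K) ≠ 0) :
    ((128 + 8 * h - h') / (h - 16)) ^ 2 = 64 - h' ∧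
      h * ((128 + 8 * h - h') / (h - 16) - 8) = ((128 + 8 * h - h') / (h - 16) + 8) ^ 2 ∧
      (128 + 8 * h - h') / (h - 16) ≠ 0 ∧ (128 + 8 * h - h') / (h - 16) ≠ 8 := by
  have h16 := sub_ne_zero.2 S.ne_sixteen
  set w := (128 + 8 * h - h') / (h - 16) with hw
  have hw' : w * (h - 16) = 128 + 8 * h - h' := by rw [hw, div_mul_cancel₀ _ h16]
  have hsq : w ^ 2 = 64 - h' := by
    refine mul_right_cancel₀ (pow_ne_zero 2 h16) ?_
    linear_combination (w * (h - 16) + (128 + 8 * h - h')) * hw' + S.rel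
  refine ⟨hsq, ?_, fun e => S.ne_sixtyFour h2 ?_, fun e => ?_⟩
  · linear_combination -hsq + hw'
  · rw [e, zero_pow two_ne_zero] at hsq
    linear_combination hsq
  · rw [e] at hw' hsq
    have e0 : h' = 0 := by linear_combination hsq
    have h256 : (256 : K) ≠ 0 := by rw [show (256 : K) = 2 ^ 8 by norm_num]; exact pow_ne_zero _ h2
    exact h256 (by linear_combination -hw' + e0)

/-- **Three steps.** -/
theorem exists_fourth_root {M : IntermediateField ℚ ℂ} {a b c x : ℂ} (S₀ : Step a b)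
    (S₁ : Step b c) (S₂ : Step c x) (ha : a ∈ M) (hb : b ∈ M) (hc : c ∈ M) (hx : x ∈ M) :
    ∃ d ∈ M, x = d ^ 4 * (16 - d ^ 4) := by
  have h2 : (2 : ℂ) ≠ 0 := two_ne_zero
  have hmem : ∀ {s t : ℂ}, s ∈ M → t ∈ M → (128 + 8 * s - t) / (s - 16) ∈ M := fun hs ht =>
    div_mem (sub_mem (add_mem (ofNat_mem M 128) (mul_mem (ofNat_mem M 8) hs)) ht)
      (sub_mem hs (ofNat_mem M 16))
  obtain ⟨hw2, hwc, -, hw8⟩ := S₂.root h2
  obtain ⟨hv2, hvb, hv0, -⟩ := S₁.root h2
  obtain ⟨hu2, -, hu0, -⟩ := S₀.root h2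
  have hwM := hmem hc hx
  have hvM := hmem hb hc
  have huM := hmem ha hb
  set w := (128 + 8 * c - x) / (c - 16)
  set v := (128 + 8 * b - c) / (b - 16)
  set u := (128 + 8 * a - b) / (a - 16)
  have hw8' : w - 8 ≠ 0 := sub_ne_zero.2 hw8
  set e := (24 - w) / v with he
  have hwv : v ^ 2 * (w - 8) = -(24 - w) ^ 2 := by linear_combination (w - 8) * hv2 - hwc
  have he2 : e ^ 2 = 8 - w := by
    rw [he, div_pow, div_eq_iff (pow_ne_zero 2 hv0)]
    linear_combination hwv
  have he0 : e ≠ 0 := fun z => hw8' (by rw [z] at he2; linear_combination he2)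
  have hve : v * e = 16 + e ^ 2 := by
    rw [he2, he, mul_div_cancel₀ _ hv0]
    ring
  set f := (24 - v) / u with hf
  have hvu : u ^ 2 * (v - 8) = -(24 - v) ^ 2 := by linear_combination (v - 8) * hu2 - hvb
  have hf2 : f ^ 2 = 8 - v := by
    rw [hf, div_pow, div_eq_iff (pow_ne_zero 2 hu0)]
    linear_combination hvu
  have hfe : f ^ 2 * e = -(e - 4) ^ 2 := by linear_combination e * hf2 - hve
  have hf0 : f ≠ 0 := fun z => by
    rw [z] at hf2
    have : (256 : ℂ) = 0 := by linear_combination hvu - (u ^ 2 + v - 40) * hf2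
    norm_num at this
  refine ⟨(e - 4) / f, ?_, ?_⟩
  · exact div_mem (sub_mem (div_mem (sub_mem (ofNat_mem M 24) hwM) hvM) (ofNat_mem M 4))
      (div_mem (sub_mem (ofNat_mem M 24) hvM) huM)
  · have hd : ((e - 4) / f) ^ 2 = -e := by
      rw [div_pow, div_eq_iff (pow_ne_zero 2 hf0)]
      linear_combination hfe
    rw [show ((e - 4) / f) ^ 4 = (((e - 4) / f) ^ 2) ^ 2 by ring, hd, neg_sq, he2]
    linear_combination hw2

end FA.CongruentSeven

end
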